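import Mathlib

/-!
# Row LT, tower T6, P7 (archimedean matching `ℂ/ℝ`): the Abel transform (helper517), OFF-MAIN

`abelT517 F v = ∫_ℝ F (v + w²) dw` and its inverse `abelInv517 Q x = -(1/π) ∫_ℝ Q' (x + w²) dw`.
Mathlib only.
-/

set_option autoImplicit false
set_option linter.unusedSectionVars false

open MeasureTheory Real Set Filter Topology
open scoped ContDiff

noncomputable section

namespace Fermat.Agent.LT.T6.H517

variable {E : Type*} [NormedAddCommGroup E] [NormedSpace ℝ E]

/-- The Abel transform `(𝒜F)(v) = ∫_ℝ F(v + w²) dw`. -/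
def abelT517 (F : ℝ → E) (v : ℝ) : E := ∫ w : ℝ, F (v + w ^ 2)

/-- The inverse Abel transform `F(x) = -(1/π) ∫_ℝ Q'(x + w²) dw`. -/
def abelInv517 (Q : ℝ → E) (x : ℝ) : E := (-(1 / π)) • ∫ w : ℝ, deriv Q (x + w ^ 2)

/-- `G` vanishes on `[M, ∞)`. -/
def VanishesAbove517 (G : ℝ → E) (M : ℝ) : Prop := ∀ x : ℝ, M ≤ x → G x = 0

theorem sq_add_sq_ge_of_norm517 {p : ℝ × ℝ} {M : ℝ}
    (hp : p ∉ Metric.closedBall (0 : ℝ × ℝ) (Real.sqrt (|M|) + 1)) : M ≤ p.1 ^ 2 + p.2 ^ 2 := by
  simp only [Metric.mem_closedBall, dist_zero_right, not_le] at hp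
  have h1 : Real.sqrt (|M|) + 1 < max |p.1| |p.2| := by
    simpa [Prod.norm_def] using hp
  have h0 : 0 ≤ Real.sqrt (|M|) := Real.sqrt_nonneg _
  have h2 : |M| < (max |p.1| |p.2|) ^ 2 := by
    have : Real.sqrt (|M|) < max |p.1| |p.2| := by linarith
    have h3 := Real.sq_sqrt (abs_nonneg M)
    nlinarith
  have h4 : (max |p.1| |p.2|) ^ 2 ≤ p.1 ^ 2 + p.2 ^ 2 := by
    rcases max_cases |p.1| |p.2| with ⟨h, _⟩ | ⟨h, _⟩
    · rw [h, sq_abs]; nlinarith [sq_nonneg p.2]
    · rw [h, sq_abs]; nlinarith [sq_nonneg p.1]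
  have h5 : M ≤ |M| := le_abs_self _
  linarith

theorem hasCompactSupport_radial517 {G : ℝ → E} {M : ℝ} (hG : VanishesAbove517 G M)
    (g : ℝ → ℝ) :
    HasCompactSupport (fun p : ℝ × ℝ => g p.1 • G (p.1 ^ 2 + p.2 ^ 2)) := by
  apply HasCompactSupport.intro (K := Metric.closedBall (0 : ℝ × ℝ) (Real.sqrt (|M|) + 1))
    (isCompact_closedBall _ _)
  intro p hp
  rw [hG _ (sq_add_sq_ge_of_norm517 hp), smul_zero]

/-- Polar coordinates for `∫∫ g(s) • G(s² + w²) ds dw`. -/
theorem integral_mul_radial517 [CompleteSpace E] {G : ℝ → E} (hGc : Continuous G) {M : ℝ}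
    (hG : VanishesAbove517 G M) {g : ℝ → ℝ} (hg : Continuous g) :
    ∫ s : ℝ, g s • ∫ w : ℝ, G (s ^ 2 + w ^ 2)
      = ∫ r in Ioi (0 : ℝ), (r * ∫ θ in Ioo (-π) π, g (r * cos θ)) • G (r ^ 2) := by
  set f : ℝ × ℝ → E := fun p => g p.1 • G (p.1 ^ 2 + p.2 ^ 2) with hf
  have hfc : Continuous f := by
    apply Continuous.smul
    · exact hg.comp continuous_fst
    · exact hGc.comp (by fun_prop)
  have hfi : Integrable f (volume.prod volume) := by
    rw [← Measure.volume_eq_prod]
    exact hfc.integrable_of_hasCompactSupport (hasCompactSupport_radial517 hG g)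
  have h1 : ∫ s : ℝ, g s • ∫ w : ℝ, G (s ^ 2 + w ^ 2) = ∫ p : ℝ × ℝ, f p := by
    rw [Measure.volume_eq_prod, integral_prod f hfi]
    refine integral_congr_ae (Eventually.of_forall fun s => ?_)
    simp only [hf]
    rw [integral_smul]
  rw [h1, ← integral_comp_polarCoord_symm f]
  -- the polar side
  set F' : ℝ × ℝ → E := fun q => q.1 • f (polarCoord.symm q) with hF'
  have hF'eq : ∀ q : ℝ × ℝ, F' q = (q.1 * g (q.1 * cos q.2)) • G (q.1 ^ 2) := by
    intro q
    simp only [hF', hf, polarCoord_symm_apply]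
    have : (q.1 * cos q.2) ^ 2 + (q.1 * sin q.2) ^ 2 = q.1 ^ 2 := by
      have := Real.cos_sq_add_sin_sq q.2
      nlinarith
    rw [this, smul_smul]
  have hF'c : Continuous F' := by
    have : F' = fun q : ℝ × ℝ => (q.1 * g (q.1 * cos q.2)) • G (q.1 ^ 2) := funext hF'eq
    rw [this]
    apply Continuous.smul
    · exact continuous_fst.mul (hg.comp (by fun_prop))
    · exact hGc.comp (by fun_prop)
  have hF'i : IntegrableOn F' (Ioi (0 : ℝ) ×ˢ Ioo (-π) π) (volume.prod volume) := by
    have hK : IntegrableOn F' (Icc (0 : ℝ) (Real.sqrt (|M|) + 1) ×ˢ Icc (-π) π)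
        (volume.prod volume) := by
      rw [← Measure.volume_eq_prod]
      exact hF'c.continuousOn.integrableOn_compact (isCompact_Icc.prod isCompact_Icc)
    refine hK.of_forall_sdiff_eq_zero (measurableSet_Ioi.prod measurableSet_Ioo) ?_
    rintro ⟨r, θ⟩ ⟨⟨hr, hθ⟩, hn⟩
    simp only [mem_Ioi, mem_Ioo] at hr hθ
    have hr2 : Real.sqrt (|M|) + 1 < r := by
      by_contra hcon
      exact hn ⟨⟨hr.le, not_lt.mp hcon⟩, ⟨hθ.1.le, hθ.2.le⟩⟩
    rw [hF'eq]
    have h0 : 0 ≤ Real.sqrt (|M|) := Real.sqrt_nonneg _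
    have h3 := Real.sq_sqrt (abs_nonneg M)
    have : M ≤ r ^ 2 := by
      have h5 : M ≤ |M| := le_abs_self _
      nlinarith
    rw [hG _ this, smul_zero]
  have h2 : ∫ q in polarCoord.target, F' q
      = ∫ r in Ioi (0 : ℝ), ∫ θ in Ioo (-π) π, F' (r, θ) := by
    rw [polarCoord_target, Measure.volume_eq_prod, setIntegral_prod F' hF'i]
  rw [h2]
  refine setIntegral_congr_fun measurableSet_Ioi fun r _ => ?_
  simp only [hF'eq]
  rw [integral_smul_const, integral_const_mul]

/-- The substitution `y = r²` on `(0, ∞)`. -/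
theorem integral_Ioi_comp_sq517 (h : ℝ → E) :
    ∫ y in Ioi (0 : ℝ), h y = ∫ r in Ioi (0 : ℝ), (2 * r) • h (r ^ 2) := by
  have himg : (fun r : ℝ => r ^ 2) '' Ioi (0 : ℝ) = Ioi 0 := by
    ext y
    simp only [mem_image, mem_Ioi]
    constructor
    · rintro ⟨r, hr, rfl⟩
      positivity
    · intro hy
      exact ⟨Real.sqrt y, Real.sqrt_pos.mpr hy, Real.sq_sqrt hy.le⟩
  have hinj : InjOn (fun r : ℝ => r ^ 2) (Ioi (0 : ℝ)) := by
    intro a ha b hb hab
    simp only [mem_Ioi] at ha hb
    have hab' : a ^ 2 = b ^ 2 := hab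
    nlinarith [sq_nonneg (a - b), sq_nonneg (a + b)]
  have hder : ∀ r ∈ Ioi (0 : ℝ), HasDerivWithinAt (fun r : ℝ => r ^ 2) (2 * r) (Ioi 0) r := by
    intro r _
    have := (hasDerivAt_pow 2 r).hasDerivWithinAt (s := Ioi (0 : ℝ))
    simpa using this
  have key := integral_image_eq_integral_abs_deriv_smul measurableSet_Ioi hder hinj h
  rw [himg] at key
  rw [key]
  refine setIntegral_congr_fun measurableSet_Ioi fun r hr => ?_
  simp only [mem_Ioi] at hr
  have : |2 * r| = 2 * r := abs_of_pos (by linarith)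
  simp only [this]

/-- `∫∫ G(s² + w²) ds dw = π ∫_0^∞ G(y) dy`. -/
theorem integral_radial517 [CompleteSpace E] {G : ℝ → E} (hGc : Continuous G) {M : ℝ}
    (hG : VanishesAbove517 G M) :
    ∫ s : ℝ, ∫ w : ℝ, G (s ^ 2 + w ^ 2) = π • ∫ y in Ioi (0 : ℝ), G y := by
  have h := integral_mul_radial517 hGc hG (g := fun _ => (1 : ℝ)) continuous_const
  simp only [one_smul] at h
  rw [h, integral_Ioi_comp_sq517 G, ← integral_smul]
  refine setIntegral_congr_fun measurableSet_Ioi fun r _ => ?_
  have hvol : ∫ θ in Ioo (-π) π, (1 : ℝ) = 2 * π := by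
    rw [setIntegral_const]
    simp [Measure.real, Real.volume_Ioo, two_mul, Real.pi_pos.le]
  simp only [hvol, smul_smul]
  congr 1
  ring

theorem vanishesAbove_comp_add517 {G : ℝ → E} {M : ℝ} (hG : VanishesAbove517 G M) (v : ℝ) :
    VanishesAbove517 (fun y => G (v + y)) (M - v) := by
  intro y hy
  exact hG _ (by linarith)

theorem vanishesAbove_deriv517 {Q : ℝ → E} {M : ℝ} (hQ : VanishesAbove517 Q M)
    (hc : Continuous (deriv Q)) : VanishesAbove517 (deriv Q) M := by
  have hopen : ∀ x, M < x → deriv Q x = 0 := by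
    intro x hx
    have : Q =ᶠ[𝓝 x] fun _ => (0 : E) := by
      filter_upwards [Ioi_mem_nhds hx] with y hy
      exact hQ y (le_of_lt hy)
    rw [this.deriv_eq]
    simp
  intro x hx
  rcases hx.eq_or_lt with rfl | hlt
  · have hcl : M ∈ closure (Ioi M) := by
      rw [closure_Ioi]; exact self_mem_Ici
    have : deriv Q M ∈ closure ({0} : Set E) := by
      refine map_mem_closure hc hcl ?_
      intro y hy
      simpa using hopen y hy
    simpa using this
  · exact hopen x hlt

/-- FTC: `∫_0^∞ Q'(v + y) dy = -Q(v)`. -/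
theorem integral_Ioi_deriv517 [CompleteSpace E] {Q : ℝ → E} (hQ : ContDiff ℝ 1 Q) {M : ℝ}
    (hQM : VanishesAbove517 Q M) (v : ℝ) :
    ∫ y in Ioi (0 : ℝ), deriv Q (v + y) = - Q v := by
  have hdc : Continuous (deriv Q) := hQ.continuous_deriv le_rfl
  have hd0 := vanishesAbove_deriv517 hQM hdc
  have hderiv : ∀ y ∈ Ici (0 : ℝ), HasDerivAt (fun y => Q (v + y)) (deriv Q (v + y)) y := by
    intro y _
    have h1 : HasDerivAt Q (deriv Q (v + y)) (v + y) :=
      (hQ.differentiable one_ne_zero (v + y)).hasDerivAt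
    exact h1.comp_const_add v y
  have hint : IntegrableOn (fun y => deriv Q (v + y)) (Ioi (0 : ℝ)) := by
    have hK : IntegrableOn (fun y => deriv Q (v + y)) (Icc (0 : ℝ) (|M - v| + 1)) :=
      (hdc.comp (by fun_prop : Continuous fun y : ℝ => v + y)).continuousOn.integrableOn_compact
        isCompact_Icc
    refine hK.of_forall_sdiff_eq_zero measurableSet_Ioi ?_
    rintro y ⟨hy, hn⟩
    simp only [mem_Ioi] at hy
    have : |M - v| + 1 < y := by
      by_contra hcon
      exact hn ⟨hy.le, not_lt.mp hcon⟩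
    apply hd0
    have := le_abs_self (M - v)
    linarith
  have htend : Tendsto (fun y => Q (v + y)) atTop (𝓝 0) := by
    apply tendsto_const_nhds.congr'
    filter_upwards [eventually_ge_atTop (M - v)] with y hy
    exact (hQM _ (by linarith)).symm
  rw [integral_Ioi_of_hasDerivAt_of_tendsto' hderiv hint htend]
  simp

/-- **Abel inversion.**  `𝒜 (𝒜⁻¹ Q) = Q` for `Q` of class `C¹` vanishing on `[M, ∞)`. -/
theorem abelT_abelInv517 [CompleteSpace E] {Q : ℝ → E} (hQ : ContDiff ℝ 1 Q) {M : ℝ}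
    (hQM : VanishesAbove517 Q M) (v : ℝ) : abelT517 (abelInv517 Q) v = Q v := by
  have hdc : Continuous (deriv Q) := hQ.continuous_deriv le_rfl
  have hd0 := vanishesAbove_deriv517 hQM hdc
  have hG : VanishesAbove517 (fun y => deriv Q (v + y)) (M - v) := vanishesAbove_comp_add517 hd0 v
  have hGc : Continuous fun y => deriv Q (v + y) := hdc.comp (by fun_prop)
  have h := integral_radial517 hGc hG
  rw [integral_Ioi_deriv517 hQ hQM v] at h
  simp only [abelT517, abelInv517]
  rw [integral_smul]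
  have h2 : ∀ w w' : ℝ, v + w ^ 2 + w' ^ 2 = v + (w ^ 2 + w' ^ 2) := fun w w' => by ring
  simp only [h2]
  rw [h, smul_smul]
  have : -(1 / π) * π = -1 := by
    field_simp
  rw [this]
  simp

theorem vanishesAbove_abelT517 {G : ℝ → E} {M : ℝ} (hG : VanishesAbove517 G M) :
    VanishesAbove517 (abelT517 G) M := by
  intro x hx
  simp only [abelT517]
  have : (fun w : ℝ => G (x + w ^ 2)) = fun _ => (0 : E) := by
    funext w
    exact hG _ (by nlinarith [sq_nonneg w])
  rw [this]
  simp

theorem vanishesAbove_abelInv517 {Q : ℝ → E} {M : ℝ} (hQ : VanishesAbove517 Q M)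
    (hc : Continuous (deriv Q)) : VanishesAbove517 (abelInv517 Q) M := by
  intro x hx
  have h := vanishesAbove_abelT517 (vanishesAbove_deriv517 hQ hc) x hx
  simp only [abelT517] at h
  simp only [abelInv517, h, smul_zero]

theorem integrable_comp_add_sq517 {G : ℝ → E} (hGc : Continuous G) {M : ℝ}
    (hG : VanishesAbove517 G M) (x : ℝ) : Integrable fun w : ℝ => G (x + w ^ 2) := by
  apply (hGc.comp (by fun_prop : Continuous fun w : ℝ => x + w ^ 2)).integrable_of_hasCompactSupport
  apply HasCompactSupport.intro (K := Icc (-(|M - x| + 1)) (|M - x| + 1)) isCompact_Icc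
  intro w hw
  apply hG
  have h1 : |M - x| + 1 < |w| := by
    by_contra hcon
    exact hw (abs_le.mp (not_lt.mp hcon))
  have h2 := le_abs_self (M - x)
  have h3 := abs_nonneg (M - x)
  have h4 : w ^ 2 = |w| ^ 2 := (sq_abs w).symm
  nlinarith

/-- Differentiation of the Abel transform under the integral sign. -/
theorem hasDerivAt_abelT517 [CompleteSpace E] {G : ℝ → E} (hG1 : ContDiff ℝ 1 G) {M : ℝ}
    (hG : VanishesAbove517 G M) (x₀ : ℝ) :
    HasDerivAt (abelT517 G) (abelT517 (deriv G) x₀) x₀ := by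
  have hGc : Continuous G := hG1.continuous
  have hdc : Continuous (deriv G) := hG1.continuous_deriv le_rfl
  have hd0 := vanishesAbove_deriv517 hG hdc
  set R : ℝ := |M - x₀| + 2 with hR
  have hRpos : 0 < R := by have := abs_nonneg (M - x₀); linarith
  obtain ⟨C, hC⟩ := (isCompact_Icc (a := x₀ - 1) (b := x₀ + 1 + R ^ 2)).exists_bound_of_continuousOn
    hdc.continuousOn
  set bound : ℝ → ℝ := (Icc (-R) R).indicator fun _ => C with hbound
  have key := hasDerivAt_integral_of_dominated_loc_of_deriv_le (μ := volume)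
    (F := fun x w => G (x + w ^ 2)) (F' := fun x w => deriv G (x + w ^ 2)) (x₀ := x₀)
    (s := Metric.ball x₀ 1) (bound := bound) (Metric.ball_mem_nhds x₀ one_pos)
    (Eventually.of_forall fun x =>
      (hGc.comp (by fun_prop : Continuous fun w : ℝ => x + w ^ 2)).aestronglyMeasurable)
    (integrable_comp_add_sq517 hGc hG x₀)
    (hdc.comp (by fun_prop : Continuous fun w : ℝ => x₀ + w ^ 2)).aestronglyMeasurable
    ?_ ?_ ?_
  · exact key.2
  · refine Eventually.of_forall fun w x hx => ?_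
    rw [Metric.mem_ball, Real.dist_eq] at hx
    have hx' := abs_lt.mp hx
    by_cases hw : w ∈ Icc (-R) R
    · simp only [hbound, indicator_of_mem hw]
      apply hC
      have hw2 : w ^ 2 ≤ R ^ 2 := by
        have := abs_le.mpr hw
        have h4 : w ^ 2 = |w| ^ 2 := (sq_abs w).symm
        have h5 := abs_nonneg w
        nlinarith
      constructor
      · nlinarith [sq_nonneg w]
      · linarith
    · simp only [hbound, indicator_of_notMem hw]
      have h1 : R < |w| := by
        by_contra hcon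
        exact hw (abs_le.mp (not_lt.mp hcon))
      have : M ≤ x + w ^ 2 := by
        have h2 := le_abs_self (M - x₀)
        have h3 := abs_nonneg (M - x₀)
        have h4 : w ^ 2 = |w| ^ 2 := (sq_abs w).symm
        nlinarith
      rw [hd0 _ this, norm_zero]
  · exact (integrable_indicator_iff measurableSet_Icc).mpr
      (integrableOn_const (by simp))
  · refine Eventually.of_forall fun w x _ => ?_
    have h1 : HasDerivAt G (deriv G (x + w ^ 2)) (x + w ^ 2) :=
      (hG1.differentiable one_ne_zero (x + w ^ 2)).hasDerivAt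
    exact h1.comp_add_const x (w ^ 2)

theorem contDiff_nat_abelT517 [CompleteSpace E] (n : ℕ) :
    ∀ {G : ℝ → E}, ContDiff ℝ ∞ G → ∀ {M : ℝ}, VanishesAbove517 G M →
      ContDiff ℝ n (abelT517 G) := by
  induction n with
  | zero =>
    intro G hG M hGM
    have hG1 : ContDiff ℝ 1 G := hG.of_le (by exact_mod_cast le_top)
    rw [Nat.cast_zero, contDiff_zero]
    exact continuous_iff_continuousAt.mpr fun x =>
      (hasDerivAt_abelT517 hG1 hGM x).continuousAt
  | succ n ih =>
    intro G hG M hGM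
    have hG1 : ContDiff ℝ 1 G := hG.of_le (by exact_mod_cast le_top)
    have hd : ∀ x, HasDerivAt (abelT517 G) (abelT517 (deriv G) x) x :=
      fun x => hasDerivAt_abelT517 hG1 hGM x
    have hderiv : deriv (abelT517 G) = abelT517 (deriv G) := funext fun x => (hd x).deriv
    have hdG : ContDiff ℝ ∞ (deriv G) := by
      have := (contDiff_infty_iff_deriv.mp hG).2
      exact this
    have hdc : Continuous (deriv G) := hG1.continuous_deriv le_rfl
    have hd0 := vanishesAbove_deriv517 hGM hdc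
    rw [show ((n + 1 : ℕ) : WithTop ℕ∞) = (n : WithTop ℕ∞) + 1 by push_cast; rfl]
    rw [contDiff_succ_iff_deriv]
    refine ⟨fun x => (hd x).differentiableAt, ?_, ?_⟩
    · intro h
      exfalso
      exact absurd h (by exact_mod_cast WithTop.coe_ne_top)
    · rw [hderiv]
      exact ih hdG hd0

theorem contDiff_abelT517 [CompleteSpace E] {G : ℝ → E} (hG : ContDiff ℝ ∞ G) {M : ℝ}
    (hGM : VanishesAbove517 G M) : ContDiff ℝ ∞ (abelT517 G) :=
  contDiff_infty.mpr fun n => contDiff_nat_abelT517 n hG hGM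

theorem contDiff_abelInv517 [CompleteSpace E] {Q : ℝ → E} (hQ : ContDiff ℝ ∞ Q) {M : ℝ}
    (hQM : VanishesAbove517 Q M) : ContDiff ℝ ∞ (abelInv517 Q) := by
  have hdQ : ContDiff ℝ ∞ (deriv Q) := (contDiff_infty_iff_deriv.mp hQ).2
  have hd0 := vanishesAbove_deriv517 hQM hdQ.continuous
  have h : abelInv517 Q = fun x => (-(1 / π)) • abelT517 (deriv Q) x := rfl
  rw [h]
  exact (contDiff_abelT517 hdQ hd0).const_smul _

end Fermat.Agent.LT.T6.H517

end
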